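import Fermat.Prelude.Def_GoodReductionJacobian_RelativeGroupLawKernel

/-!
# Row S26, block SOFT, leaf S1 (helper126): group calculus from `RelativeGroupLaw`

Everything is Yoneda: a `RelativeGroupLaw R f` is a natural group structure on the functor of
points `T ↦ SchemeHomOver t f` of `f : A ⟶ Spec R`.  We extract the morphisms of schemes

* `addHom G : pullback f f ⟶ A` (addition `m`),
* `negHom G : A ⟶ A` (`[-1]`),
* `G.schemeNsmul n : A ⟶ A` (`[n]`, from the prelude),
* `transl G x : A ⟶ A` (translation `T_x : a ↦ a + x` by an `R`-point `x`),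

and prove that they compute the group law on `T`-points, together with the usual identities.
The last section identifies the `T`-points of `G.schemeKer n` with the `n`-torsion `T`-points.

Only the prelude and Mathlib are used; the base is an arbitrary commutative ring `R`.
-/

set_option autoImplicit false

noncomputable section

universe u

open CategoryTheory CategoryTheory.Limits AlgebraicGeometry NeronModelInfra GoodReductionJacobian

namespace Fermat.Agent.S26.H126

variable {R : Type u} [CommRing R] {A : Scheme.{u}} {f : A ⟶ Spec (CommRingCat.of R)}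

/-! ## Points -/

section Points

variable {T T' T'' : Scheme.{u}} {t : T ⟶ Spec (CommRingCat.of R)}
  {t' : T' ⟶ Spec (CommRingCat.of R)} {t'' : T'' ⟶ Spec (CommRingCat.of R)}

/-- Yoneda: every `T`-point is the pull-back of the universal point `idPoint`. -/
theorem comp_idPoint (x : SchemeHomOver t f) :
    schemeHomOverComp x.1 x.2 (RelativeGroupLaw.idPoint (f := f)) = x :=
  Subtype.ext (Category.comp_id _)

theorem schemeHomOverComp_id (x : SchemeHomOver t f) :
    schemeHomOverComp (𝟙 T) (Category.id_comp t) x = x :=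
  Subtype.ext (Category.id_comp _)

theorem schemeHomOverComp_comp (ψ : T' ⟶ T) (hψ : ψ ≫ t = t') (φ : T'' ⟶ T')
    (hφ : φ ≫ t' = t'') (x : SchemeHomOver t f) :
    schemeHomOverComp φ hφ (schemeHomOverComp ψ hψ x) =
      schemeHomOverComp (φ ≫ ψ) (by rw [Category.assoc, hψ, hφ]) x :=
  Subtype.ext (Category.assoc _ _ _).symm

/-- The constant `T`-point with value the `R`-point `x`. -/
def constPt (t : T ⟶ Spec (CommRingCat.of R))
    (x : SchemeHomOver (𝟙 (Spec (CommRingCat.of R))) f) : SchemeHomOver t f :=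
  schemeHomOverComp t (Category.comp_id t) x

@[simp]
theorem constPt_coe (t : T ⟶ Spec (CommRingCat.of R))
    (x : SchemeHomOver (𝟙 (Spec (CommRingCat.of R))) f) : (constPt t x).1 = t ≫ x.1 :=
  rfl

theorem constPt_id (x : SchemeHomOver (𝟙 (Spec (CommRingCat.of R))) f) :
    constPt (𝟙 (Spec (CommRingCat.of R))) x = x :=
  Subtype.ext (Category.id_comp _)

theorem schemeHomOverComp_constPt (ψ : T' ⟶ T) (hψ : ψ ≫ t = t')
    (x : SchemeHomOver (𝟙 (Spec (CommRingCat.of R))) f) :
    schemeHomOverComp ψ hψ (constPt t x) = constPt t' x :=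
  Subtype.ext (by simp [← hψ])

end Points

/-! ## The group law on `T`-points -/

section Law

variable (G : RelativeGroupLaw R f)
variable {T T' : Scheme.{u}} {t : T ⟶ Spec (CommRingCat.of R)}
  {t' : T' ⟶ Spec (CommRingCat.of R)}

/-- Uniqueness of inverses. -/
theorem law_eq_inv_of_mul_eq_one {x y : SchemeHomOver t f} (h : G.mul t y x = G.one t) :
    y = G.inv t x := by
  calc y = G.mul t y (G.one t) := (G.mul_one t y).symm
    _ = G.mul t y (G.mul t x (G.inv t x)) := by rw [G.mul_inv_cancel]
    _ = G.mul t (G.mul t y x) (G.inv t x) := (G.mul_assoc t _ _ _).symm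
    _ = G.mul t (G.one t) (G.inv t x) := by rw [h]
    _ = G.inv t x := G.one_mul t _

/-- The inverse is natural in `T` (a consequence of the naturality of the product). -/
theorem law_inv_natural (ψ : T' ⟶ T) (hψ : ψ ≫ t = t') (x : SchemeHomOver t f) :
    schemeHomOverComp ψ hψ (G.inv t x) = G.inv t' (schemeHomOverComp ψ hψ x) := by
  apply law_eq_inv_of_mul_eq_one
  rw [← G.mul_natural t t' ψ hψ, G.inv_mul_cancel, G.one_natural t t' ψ hψ]

/-- `G.nsmul` is the power of the group `G.pointGroup t`. -/
theorem law_nsmul_eq_pow (n : ℕ) (x : SchemeHomOver t f) :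
    letI := G.pointGroup t
    G.nsmul t n x = x ^ n := by
  letI := G.pointGroup t
  induction n with
  | zero => exact (pow_zero x).symm
  | succ n ih =>
      rw [pow_succ, ← ih]
      rfl

theorem law_nsmul_add (m n : ℕ) (x : SchemeHomOver t f) :
    G.nsmul t (m + n) x = G.mul t (G.nsmul t m x) (G.nsmul t n x) := by
  letI := G.pointGroup t
  rw [law_nsmul_eq_pow, law_nsmul_eq_pow, law_nsmul_eq_pow]
  exact pow_add x m n

theorem law_nsmul_mul (m n : ℕ) (x : SchemeHomOver t f) :
    G.nsmul t (m * n) x = G.nsmul t n (G.nsmul t m x) := by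
  letI := G.pointGroup t
  rw [law_nsmul_eq_pow, law_nsmul_eq_pow, law_nsmul_eq_pow]
  exact pow_mul x m n

theorem law_nsmul_inv (n : ℕ) (x : SchemeHomOver t f) :
    G.nsmul t n (G.inv t x) = G.inv t (G.nsmul t n x) := by
  letI := G.pointGroup t
  rw [law_nsmul_eq_pow, law_nsmul_eq_pow]
  exact inv_pow x n

/-- `[n]` is additive on `T`-points when the law is commutative. -/
theorem law_nsmul_mul_distrib (hc : G.IsCommutative) (n : ℕ) (x y : SchemeHomOver t f) :
    G.nsmul t n (G.mul t x y) = G.mul t (G.nsmul t n x) (G.nsmul t n y) := by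
  letI := G.pointGroup t
  rw [law_nsmul_eq_pow, law_nsmul_eq_pow, law_nsmul_eq_pow]
  have h : Commute x y := hc t x y
  exact h.mul_pow n

theorem law_inv_mul_distrib (hc : G.IsCommutative) (x y : SchemeHomOver t f) :
    G.inv t (G.mul t x y) = G.mul t (G.inv t x) (G.inv t y) := by
  letI := G.pointGroup t
  have h : Commute x y := hc t x y
  show (x * y)⁻¹ = x⁻¹ * y⁻¹
  rw [mul_inv_rev]
  exact (h.inv_inv.eq).symm

theorem law_inv_inv (x : SchemeHomOver t f) : G.inv t (G.inv t x) = x := by
  letI := G.pointGroup t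
  exact _root_.inv_inv x

theorem law_inv_one : G.inv t (G.one t) = G.one t := by
  letI := G.pointGroup t
  exact _root_.inv_one

/-! ### constant points -/

theorem constPt_mul (t : T ⟶ Spec (CommRingCat.of R))
    (x y : SchemeHomOver (𝟙 (Spec (CommRingCat.of R))) f) :
    constPt t (G.mul _ x y) = G.mul t (constPt t x) (constPt t y) :=
  G.mul_natural _ t t (Category.comp_id t) x y

theorem constPt_one (t : T ⟶ Spec (CommRingCat.of R)) :
    constPt t (G.one (𝟙 (Spec (CommRingCat.of R)))) = G.one t :=
  G.one_natural _ t t (Category.comp_id t)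

theorem constPt_inv (t : T ⟶ Spec (CommRingCat.of R))
    (x : SchemeHomOver (𝟙 (Spec (CommRingCat.of R))) f) :
    constPt t (G.inv _ x) = G.inv t (constPt t x) :=
  law_inv_natural G t (Category.comp_id t) x

theorem constPt_nsmul (t : T ⟶ Spec (CommRingCat.of R)) (n : ℕ)
    (x : SchemeHomOver (𝟙 (Spec (CommRingCat.of R))) f) :
    constPt t (G.nsmul _ n x) = G.nsmul t n (constPt t x) :=
  G.nsmul_natural _ t t (Category.comp_id t) n x

/-- The zero section composed with the structure map is the zero `T`-point. -/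
theorem law_one_coe (t : T ⟶ Spec (CommRingCat.of R)) :
    (G.one t).1 = t ≫ (G.one (𝟙 (Spec (CommRingCat.of R)))).1 :=
  (congrArg Subtype.val (constPt_one G t)).symm

end Law

/-! ## The morphisms `[-1]`, `[n]`, `m` -/

section Morphisms

variable (G : RelativeGroupLaw R f)
variable {T T' : Scheme.{u}} {t : T ⟶ Spec (CommRingCat.of R)}
  {t' : T' ⟶ Spec (CommRingCat.of R)}

/-- The zero section `Spec R ⟶ A`. -/
def zeroSec : Spec (CommRingCat.of R) ⟶ A := (G.one (𝟙 (Spec (CommRingCat.of R)))).1

@[reassoc (attr := simp)]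
theorem zeroSec_over : zeroSec G ≫ f = 𝟙 _ := (G.one (𝟙 (Spec (CommRingCat.of R)))).2

theorem law_one_coe' (t : T ⟶ Spec (CommRingCat.of R)) : (G.one t).1 = t ≫ zeroSec G :=
  law_one_coe G t

/-- The inverse `[-1] : A ⟶ A`. -/
def negHom : A ⟶ A := (G.inv f RelativeGroupLaw.idPoint).1

@[reassoc (attr := simp)]
theorem negHom_over : negHom G ≫ f = f := (G.inv f RelativeGroupLaw.idPoint).2

/-- Yoneda for `[-1]`. -/
theorem law_inv_coe (x : SchemeHomOver t f) : (G.inv t x).1 = x.1 ≫ negHom G := by
  have h := law_inv_natural G x.1 x.2 RelativeGroupLaw.idPoint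
  rw [comp_idPoint] at h
  exact (congrArg Subtype.val h).symm

/-- Yoneda for `[n]`. -/
theorem law_nsmul_coe (n : ℕ) (x : SchemeHomOver t f) :
    (G.nsmul t n x).1 = x.1 ≫ G.schemeNsmul n := by
  have h := G.nsmul_natural f t x.1 x.2 n RelativeGroupLaw.idPoint
  rw [comp_idPoint] at h
  exact (congrArg Subtype.val h).symm

@[reassoc (attr := simp)]
theorem negHom_negHom : negHom G ≫ negHom G = 𝟙 A := by
  have h := law_inv_coe G (G.inv f RelativeGroupLaw.idPoint)
  rw [law_inv_inv] at h
  exact h.symm

/-- `[-1]` as an automorphism of `A`. -/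
def negIso : A ≅ A where
  hom := negHom G
  inv := negHom G
  hom_inv_id := negHom_negHom G
  inv_hom_id := negHom_negHom G

instance negHom_isIso : IsIso (negHom G) := (negIso G).isIso_hom

theorem schemeNsmul_zero : G.schemeNsmul 0 = f ≫ zeroSec G :=
  law_one_coe' G f

theorem schemeNsmul_one : G.schemeNsmul 1 = 𝟙 A :=
  congrArg Subtype.val (G.nsmul_one_apply f RelativeGroupLaw.idPoint)

theorem schemeNsmul_mul (m n : ℕ) :
    G.schemeNsmul (m * n) = G.schemeNsmul m ≫ G.schemeNsmul n := by
  have h := congrArg Subtype.val (law_nsmul_mul G m n (RelativeGroupLaw.idPoint (f := f)))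
  rw [law_nsmul_coe G n] at h
  exact h

theorem schemeNsmul_comm (m n : ℕ) :
    G.schemeNsmul m ≫ G.schemeNsmul n = G.schemeNsmul n ≫ G.schemeNsmul m := by
  rw [← schemeNsmul_mul, ← schemeNsmul_mul, Nat.mul_comm]

theorem negHom_comp_schemeNsmul (n : ℕ) :
    negHom G ≫ G.schemeNsmul n = G.schemeNsmul n ≫ negHom G := by
  have h := congrArg Subtype.val (law_nsmul_inv G n (RelativeGroupLaw.idPoint (f := f)))
  rw [law_nsmul_coe, law_inv_coe G (G.nsmul f n RelativeGroupLaw.idPoint)] at h
  exact h

@[reassoc (attr := simp)]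
theorem zeroSec_comp_schemeNsmul (n : ℕ) : zeroSec G ≫ G.schemeNsmul n = zeroSec G := by
  have h := congrArg Subtype.val (G.nsmul_unit (𝟙 (Spec (CommRingCat.of R))) n)
  rw [law_nsmul_coe] at h
  exact h

@[reassoc (attr := simp)]
theorem zeroSec_comp_negHom : zeroSec G ≫ negHom G = zeroSec G := by
  have h := congrArg Subtype.val (law_inv_one G (t := 𝟙 (Spec (CommRingCat.of R))))
  rw [law_inv_coe] at h
  exact h

/-! ### addition -/

variable (f) in
/-- The structure morphism of `A ×_R A`. -/
abbrev prodStr : pullback f f ⟶ Spec (CommRingCat.of R) := pullback.fst f f ≫ f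

variable (f) in
/-- The first projection as an `A ×_R A`-point of `A`. -/
def fstPt : SchemeHomOver (prodStr f) f := ⟨pullback.fst f f, rfl⟩

variable (f) in
/-- The second projection as an `A ×_R A`-point of `A`. -/
def sndPt : SchemeHomOver (prodStr f) f := ⟨pullback.snd f f, pullback.condition.symm⟩

/-- The addition `m : A ×_R A ⟶ A`. -/
def addHom : pullback f f ⟶ A := (G.mul (prodStr f) (fstPt f) (sndPt f)).1

@[reassoc]
theorem addHom_over : addHom G ≫ f = prodStr f := (G.mul (prodStr f) (fstPt f) (sndPt f)).2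

/-- The pair `(x, y) : T ⟶ A ×_R A` of two `T`-points. -/
def pairHom (x y : SchemeHomOver t f) : T ⟶ pullback f f :=
  pullback.lift x.1 y.1 (x.2.trans y.2.symm)

@[reassoc (attr := simp)]
theorem pairHom_fst (x y : SchemeHomOver t f) : pairHom x y ≫ pullback.fst f f = x.1 :=
  pullback.lift_fst _ _ _

@[reassoc (attr := simp)]
theorem pairHom_snd (x y : SchemeHomOver t f) : pairHom x y ≫ pullback.snd f f = y.1 :=
  pullback.lift_snd _ _ _

@[reassoc]
theorem pairHom_over (x y : SchemeHomOver t f) : pairHom x y ≫ prodStr f = t := by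
  rw [prodStr, pairHom_fst_assoc, x.2]

theorem comp_pairHom (ψ : T' ⟶ T) (hψ : ψ ≫ t = t') (x y : SchemeHomOver t f) :
    ψ ≫ pairHom x y = pairHom (schemeHomOverComp ψ hψ x) (schemeHomOverComp ψ hψ y) := by
  apply pullback.hom_ext <;> simp

/-- Yoneda for the addition. -/
theorem law_mul_coe (x y : SchemeHomOver t f) : (G.mul t x y).1 = pairHom x y ≫ addHom G := by
  have h := G.mul_natural (prodStr f) t (pairHom x y) (pairHom_over x y) (fstPt f) (sndPt f)
  have h1 : schemeHomOverComp (pairHom x y) (pairHom_over x y) (fstPt f) = x :=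
    Subtype.ext (pairHom_fst x y)
  have h2 : schemeHomOverComp (pairHom x y) (pairHom_over x y) (sndPt f) = y :=
    Subtype.ext (pairHom_snd x y)
  rw [h1, h2] at h
  exact (congrArg Subtype.val h).symm

/-- Commutativity of the addition as an identity of morphisms. -/
theorem symmetry_comp_addHom (hc : G.IsCommutative) :
    pairHom (sndPt f) (fstPt f) ≫ addHom G = addHom G := by
  rw [← law_mul_coe, hc (prodStr f) (sndPt f) (fstPt f)]
  rfl

/-- `[n]` is a homomorphism: `m ≫ [n] = ([n] × [n]) ≫ m`. -/
theorem addHom_comp_schemeNsmul (hc : G.IsCommutative) (n : ℕ) :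
    addHom G ≫ G.schemeNsmul n =
      pairHom (G.nsmul (prodStr f) n (fstPt f)) (G.nsmul (prodStr f) n (sndPt f)) ≫ addHom G := by
  rw [← law_mul_coe, ← law_nsmul_mul_distrib G hc, law_nsmul_coe]
  rfl

/-- `[-1]` is a homomorphism: `m ≫ [-1] = ([-1] × [-1]) ≫ m`. -/
theorem addHom_comp_negHom (hc : G.IsCommutative) :
    addHom G ≫ negHom G =
      pairHom (G.inv (prodStr f) (fstPt f)) (G.inv (prodStr f) (sndPt f)) ≫ addHom G := by
  rw [← law_mul_coe, ← law_inv_mul_distrib G hc, law_inv_coe]
  rfl

end Morphisms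

/-! ## Translations -/

section Translations

variable (G : RelativeGroupLaw R f)
variable {T : Scheme.{u}} {t : T ⟶ Spec (CommRingCat.of R)}

/-- The `R`-points of `A`. -/
abbrev RPt (f : A ⟶ Spec (CommRingCat.of R)) : Type u :=
  SchemeHomOver (𝟙 (Spec (CommRingCat.of R))) f

/-- The translation `T_x : a ↦ a + x` by the `R`-point `x`. -/
def transl (x : RPt f) : A ⟶ A := (G.mul f RelativeGroupLaw.idPoint (constPt f x)).1

@[reassoc (attr := simp)]
theorem transl_over (x : RPt f) : transl G x ≫ f = f :=
  (G.mul f RelativeGroupLaw.idPoint (constPt f x)).2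

/-- Yoneda for translations: `T_x ∘ y = y + x`. -/
theorem comp_transl (y : SchemeHomOver t f) (x : RPt f) :
    y.1 ≫ transl G x = (G.mul t y (constPt t x)).1 := by
  have h := G.mul_natural f t y.1 y.2 RelativeGroupLaw.idPoint (constPt f x)
  rw [comp_idPoint, schemeHomOverComp_constPt] at h
  exact congrArg Subtype.val h

/-- Translations act on `R`-points by addition. -/
theorem pt_comp_transl (y x : RPt f) : y.1 ≫ transl G x = (G.mul _ y x).1 := by
  rw [comp_transl, constPt_id]

theorem transl_one : transl G (G.one _) = 𝟙 A := by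
  show (G.mul f RelativeGroupLaw.idPoint (constPt f (G.one _))).1 = 𝟙 A
  rw [constPt_one, G.mul_one]

theorem transl_mul (x y : RPt f) :
    transl G (G.mul _ x y) = transl G x ≫ transl G y := by
  have h := comp_transl G (G.mul f RelativeGroupLaw.idPoint (constPt f x)) y
  rw [G.mul_assoc, ← constPt_mul] at h
  exact h.symm

@[reassoc (attr := simp)]
theorem transl_comp_transl_inv (x : RPt f) :
    transl G x ≫ transl G (G.inv _ x) = 𝟙 A := by
  rw [← transl_mul, G.mul_inv_cancel, transl_one]

@[reassoc (attr := simp)]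
theorem transl_inv_comp_transl (x : RPt f) :
    transl G (G.inv _ x) ≫ transl G x = 𝟙 A := by
  rw [← transl_mul, G.inv_mul_cancel, transl_one]

/-- The translation `T_x` as an automorphism of `A`. -/
def translIso (x : RPt f) : A ≅ A where
  hom := transl G x
  inv := transl G (G.inv _ x)
  hom_inv_id := transl_comp_transl_inv G x
  inv_hom_id := transl_inv_comp_transl G x

instance transl_isIso (x : RPt f) : IsIso (transl G x) := (translIso G x).isIso_hom

/-- `T_x` maps `0` to `x`. -/
@[reassoc]
theorem zeroSec_comp_transl (x : RPt f) : zeroSec G ≫ transl G x = x.1 := by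
  have h := pt_comp_transl G (G.one _) x
  rw [G.one_mul] at h
  exact h

/-- Translations are transitive on `R`-points. -/
theorem exists_transl (y z : RPt f) : ∃ x : RPt f, y.1 ≫ transl G x = z.1 := by
  refine ⟨G.mul _ (G.inv _ y) z, ?_⟩
  rw [pt_comp_transl, ← G.mul_assoc, G.mul_inv_cancel, G.one_mul]

theorem transl_comm (hc : G.IsCommutative) (x y : RPt f) :
    transl G x ≫ transl G y = transl G y ≫ transl G x := by
  rw [← transl_mul, ← transl_mul, hc _ x y]

/-- `[n] ∘ T_x = T_{n x} ∘ [n]`. -/
theorem transl_comp_schemeNsmul (hc : G.IsCommutative) (n : ℕ) (x : RPt f) :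
    transl G x ≫ G.schemeNsmul n = G.schemeNsmul n ≫ transl G (G.nsmul _ n x) := by
  have h1 : transl G x ≫ G.schemeNsmul n =
      (G.nsmul f n (G.mul f RelativeGroupLaw.idPoint (constPt f x))).1 :=
    (law_nsmul_coe G n _).symm
  have h2 := comp_transl G (G.nsmul f n RelativeGroupLaw.idPoint) (G.nsmul _ n x)
  rw [h1, law_nsmul_mul_distrib G hc, ← constPt_nsmul]
  exact h2.symm

/-- `[-1] ∘ T_x = T_{-x} ∘ [-1]`. -/
theorem transl_comp_negHom (hc : G.IsCommutative) (x : RPt f) :
    transl G x ≫ negHom G = negHom G ≫ transl G (G.inv _ x) := by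
  have h1 : transl G x ≫ negHom G =
      (G.inv f (G.mul f RelativeGroupLaw.idPoint (constPt f x))).1 :=
    (law_inv_coe G _).symm
  have h2 := comp_transl G (G.inv f RelativeGroupLaw.idPoint) (G.inv _ x)
  rw [h1, law_inv_mul_distrib G hc, ← constPt_inv]
  exact h2.symm

/-- The translation in terms of the addition morphism: `T_x = (id, x) ≫ m`. -/
theorem transl_eq_pairHom_comp_addHom (x : RPt f) :
    transl G x = pairHom RelativeGroupLaw.idPoint (constPt f x) ≫ addHom G :=
  law_mul_coe G _ _

/-- For a commutative law also `T_x = (x, id) ≫ m`. -/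
theorem transl_eq_pairHom_comp_addHom' (hc : G.IsCommutative) (x : RPt f) :
    transl G x = pairHom (constPt f x) RelativeGroupLaw.idPoint ≫ addHom G := by
  rw [← law_mul_coe, hc f (constPt f x) RelativeGroupLaw.idPoint]
  rfl

/-- Translations are transitive on the points of the underlying space that come from
`R`-points. -/
theorem exists_transl_base (y z : RPt f) (s : Spec (CommRingCat.of R)) :
    ∃ x : RPt f, (transl G x) (y.1 s) = z.1 s := by
  obtain ⟨x, hx⟩ := exists_transl G y z
  refine ⟨x, ?_⟩
  rw [← hx]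
  rfl

end Translations

/-! ## The kernel of `[n]` -/

section Kernel

variable (G : RelativeGroupLaw R f) (n : ℕ)
variable {T : Scheme.{u}} (t : T ⟶ Spec (CommRingCat.of R))

/-- The first projection of `G.schemeKer n` lies over the structure map. -/
theorem schemeKer_fst_over :
    pullback.fst (G.schemeNsmul n) (G.one (𝟙 (Spec (CommRingCat.of R)))).1 ≫ f =
      G.schemeKerStr n := by
  have h := pullback.condition (f := G.schemeNsmul n)
    (g := (G.one (𝟙 (Spec (CommRingCat.of R)))).1)
  have h2 := congrArg (· ≫ f) h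
  simp only [Category.assoc] at h2
  rw [G.schemeNsmul_over, (G.one (𝟙 (Spec (CommRingCat.of R)))).2, Category.comp_id] at h2
  exact h2

/-- A `T`-point of `A` is `n`-torsion iff `x ≫ [n]` is the zero `T`-point. -/
theorem isTorsionPoint_iff (x : SchemeHomOver t f) :
    G.IsTorsionPoint t n x ↔ x.1 ≫ G.schemeNsmul n = t ≫ zeroSec G := by
  rw [RelativeGroupLaw.isTorsionPoint_def, ← law_nsmul_coe, ← law_one_coe']
  exact Subtype.ext_iff

/-- The `T`-points of the scheme-theoretic kernel of `[n]` are the `n`-torsion `T`-points. -/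
def kerPtEquiv :
    SchemeHomOver t (G.schemeKerStr n) ≃ {x : SchemeHomOver t f // G.IsTorsionPoint t n x} where
  toFun s :=
    ⟨⟨s.1 ≫ pullback.fst _ _, by rw [Category.assoc, schemeKer_fst_over, s.2]⟩, by
      rw [isTorsionPoint_iff]
      show (s.1 ≫ pullback.fst _ _) ≫ G.schemeNsmul n = t ≫ zeroSec G
      rw [Category.assoc, pullback.condition, ← Category.assoc]
      have := s.2
      rw [this]
      rfl⟩
  invFun x :=
    ⟨pullback.lift x.1.1 t ((isTorsionPoint_iff G n t x.1).1 x.2), pullback.lift_snd _ _ _⟩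
  left_inv s := by
    apply Subtype.ext
    apply pullback.hom_ext
    · exact pullback.lift_fst _ _ _
    · exact (pullback.lift_snd _ _ _).trans s.2.symm
  right_inv x := by
    apply Subtype.ext
    apply Subtype.ext
    exact pullback.lift_fst _ _ _

@[simp]
theorem kerPtEquiv_apply_coe (s : SchemeHomOver t (G.schemeKerStr n)) :
    ((kerPtEquiv G n t s).1).1 = s.1 ≫ pullback.fst _ _ :=
  rfl

@[simp]
theorem kerPtEquiv_symm_apply_fst (x : {x : SchemeHomOver t f // G.IsTorsionPoint t n x}) :
    ((kerPtEquiv G n t).symm x).1 ≫ pullback.fst _ _ = x.1.1 :=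
  pullback.lift_fst _ _ _

/-- The number of `R`-points of the kernel of `[n]` is the number of `n`-torsion `R`-points. -/
theorem card_kerPt :
    Nat.card (SchemeHomOver (𝟙 (Spec (CommRingCat.of R))) (G.schemeKerStr n)) =
      Nat.card {x : RPt f // G.IsTorsionPoint (𝟙 (Spec (CommRingCat.of R))) n x} :=
  Nat.card_congr (kerPtEquiv G n _)

end Kernel

end Fermat.Agent.S26.H126
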