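import Mathlib.RingTheory.Ideal.UFD
import Mathlib.RingTheory.Ideal.Height
import Mathlib.RingTheory.Ideal.MinimalPrime.Localization
import Mathlib.RingTheory.Ideal.MinimalPrime.Noetherian
import Mathlib.RingTheory.Localization.AtPrime.Basic
import Mathlib.RingTheory.Localization.Ideal

/-!
# Row S26, block AMPLE, leaf AM-BOUNDARY (helper126): the algebraic core

* `isPrincipal_of_isRadical_of_height_one` : in a noetherian factorial domain a radical ideal all
  of whose minimal primes have height one is principal.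
* `exists_local_generator` : spreading out.  `B` a noetherian domain, `I` a radical ideal, `m` a
  prime with `B_m` factorial, all minimal primes of `I` inside `m` of height one.  Then there are
  `b ∈ I` and `f ∉ m` with `f • I ⊆ (b)`, i.e. `I B_f = b B_f`.
-/

set_option autoImplicit false

namespace Fermat.Agent.S26.H126

open Ideal

section Core1

variable {R : Type*} [CommRing R] [IsDomain R]

/-- `(q) ∩ (x) = (q x)` for a prime element `q` not dividing `x`. -/
theorem span_singleton_inf_of_prime_not_dvd {q x : R} (hq : Prime q) (hqx : ¬ q ∣ x) :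
    Ideal.span {q} ⊓ Ideal.span {x} = Ideal.span {q * x} := by
  apply le_antisymm
  · rintro y ⟨hy1, hy2⟩
    rw [SetLike.mem_coe, Ideal.mem_span_singleton] at hy1 hy2
    obtain ⟨z, rfl⟩ := hy2
    have h : q ∣ z := (hq.dvd_or_dvd hy1).resolve_left hqx
    obtain ⟨w, rfl⟩ := h
    rw [Ideal.mem_span_singleton]
    exact ⟨w, by ring⟩
  · refine le_inf ?_ ?_
    · rw [Ideal.span_singleton_le_span_singleton]
      exact dvd_mul_right q x
    · rw [Ideal.span_singleton_le_span_singleton]
      exact dvd_mul_left x q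

variable [UniqueFactorizationMonoid R]

/-- A finite intersection of prime ideals of height one in a factorial domain is principal. -/
theorem exists_span_singleton_eq_inf_of_height_one (s : Finset (Ideal R))
    (hs : ∀ Q ∈ s, Q.IsPrime ∧ Q.height = 1) :
    ∃ x : R, x ≠ 0 ∧ s.inf id = Ideal.span {x} := by
  classical
  induction s using Finset.induction_on with
  | empty => exact ⟨1, one_ne_zero, by simp⟩
  | insert Q s hQs ih =>
    obtain ⟨x, hx0, hx⟩ := ih (fun Q' hQ' => hs Q' (Finset.mem_insert_of_mem hQ'))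
    obtain ⟨hQp, hQh⟩ := hs Q (Finset.mem_insert_self Q s)
    have := hQp
    obtain ⟨q, hq⟩ := (UniqueFactorizationMonoid.isPrincipal_of_height_eq_one hQh).principal
    rw [Ideal.submodule_span_eq] at hq
    have hQbot : Q ≠ ⊥ := Q.ne_bot_of_height_eq_one hQh
    have hq0 : q ≠ 0 := by
      rintro rfl
      apply hQbot
      rw [hq]
      simp
    have hqprime : Prime q := by
      rw [← Ideal.span_singleton_prime hq0, ← hq]
      exact hQp
    have hqx : ¬ q ∣ x := by
      intro hdvd
      have hxQ : Ideal.span {x} ≤ Q := by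
        rw [hq, Ideal.span_singleton_le_span_singleton]
        exact hdvd
      rw [← hx] at hxQ
      obtain ⟨Q', hQ's, hQ'Q⟩ := hQp.inf_le'.1 hxQ
      obtain ⟨hQ'p, hQ'h⟩ := hs Q' (Finset.mem_insert_of_mem hQ's)
      have := hQ'p
      have : Q'.FiniteHeight := by
        rw [Ideal.finiteHeight_iff]
        right
        rw [hQ'h]
        exact ENat.one_ne_top
      have hQ'Q' : Q' ≤ Q := hQ'Q
      have : Q' = Q := Ideal.eq_of_le_of_height_le (I := Q') hQ'Q' (by rw [hQh, hQ'h])
      exact hQs (this ▸ hQ's)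
    refine ⟨q * x, mul_ne_zero hq0 hx0, ?_⟩
    rw [Finset.inf_insert, hx, id, hq]
    exact span_singleton_inf_of_prime_not_dvd hqprime hqx

variable [IsNoetherianRing R]

/-- In a noetherian factorial domain, a radical ideal all of whose minimal primes have height
one is principal, generated by a nonzero element. -/
theorem exists_span_singleton_eq_of_isRadical_of_height_one (J : Ideal R) (hJ : J.IsRadical)
    (hht : ∀ Q ∈ J.minimalPrimes, Q.height = 1) :
    ∃ x : R, x ≠ 0 ∧ J = Ideal.span {x} := by
  classical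
  have hfin : J.minimalPrimes.Finite := J.finite_minimalPrimes_of_isNoetherianRing
  obtain ⟨x, hx0, hx⟩ := exists_span_singleton_eq_inf_of_height_one hfin.toFinset
    (fun Q hQ => ⟨((hfin.mem_toFinset).1 hQ).isPrime, hht Q ((hfin.mem_toFinset).1 hQ)⟩)
  refine ⟨x, hx0, ?_⟩
  have h : J = hfin.toFinset.inf id := by
    rw [Finset.inf_id_eq_sInf, Set.Finite.coe_toFinset, Ideal.sInf_minimalPrimes, hJ.radical]
  rw [h, hx]

end Core1

section Core2

variable {B : Type*} [CommRing B] [IsDomain B] [IsNoetherianRing B]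

/-- **Spreading out of a local generator.** -/
theorem exists_local_generator (I : Ideal B) (hI : I.IsRadical) (m : Ideal B) [m.IsPrime]
    (R : Type*) [CommRing R] [Algebra B R] [IsLocalization.AtPrime R m] [IsDomain R]
    [UniqueFactorizationMonoid R]
    (hht : ∀ P ∈ I.minimalPrimes, P ≤ m → P.height = 1) :
    ∃ b ∈ I, ∃ f : B, f ∉ m ∧ ∀ g ∈ I, ∃ c : B, f * g = c * b := by
  classical
  have : IsNoetherianRing R := IsLocalization.isNoetherianRing m.primeCompl R inferInstance
  have hinj : Function.Injective (algebraMap B R) :=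
    IsLocalization.injective R (M := m.primeCompl) m.primeCompl_le_nonZeroDivisors
  set J : Ideal R := I.map (algebraMap B R) with hJdef
  have hJrad : J.IsRadical := by
    rw [← Ideal.radical_eq_iff, hJdef, ← IsLocalization.map_radical m.primeCompl, hI.radical]
  have hJht : ∀ Q ∈ J.minimalPrimes, Q.height = 1 := by
    intro Q hQ
    have hQp : Q.IsPrime := hQ.isPrime
    rw [hJdef, IsLocalization.minimalPrimes_map m.primeCompl R I] at hQ
    have hle : Q.under B ≤ m := by
      have hdisj := ((IsLocalization.isPrime_iff_isPrime_disjoint m.primeCompl R Q).1 hQp).2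
      intro y hy
      by_contra hym
      exact Set.disjoint_left.1 hdisj (show y ∈ (m.primeCompl : Set B) from hym) hy
    rw [← IsLocalization.height_under m.primeCompl Q]
    exact hht _ hQ hle
  obtain ⟨x, hx0, hx⟩ := exists_span_singleton_eq_of_isRadical_of_height_one J hJrad hJht
  -- a generator coming from `I`
  have hxJ : x ∈ J := by rw [hx]; exact Ideal.mem_span_singleton_self x
  obtain ⟨⟨⟨b, hbI⟩, s⟩, hbs⟩ := (IsLocalization.mem_map_algebraMap_iff m.primeCompl R).1 hxJ
  simp only at hbs
  have hsu : IsUnit (algebraMap B R (s : B)) := IsLocalization.map_units R s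
  have hJb : J = Ideal.span {algebraMap B R b} := by
    rw [hx, ← hbs]
    exact (Ideal.span_singleton_mul_right_unit hsu x).symm
  -- every element of `I` is a multiple of `b` after multiplication by some `s ∉ m`
  have key : ∀ g ∈ I, ∃ f : B, f ∉ m ∧ ∃ c : B, f * g = c * b := by
    intro g hg
    have hgJ : algebraMap B R g ∈ J := Ideal.mem_map_of_mem _ hg
    rw [hJb, Ideal.mem_span_singleton] at hgJ
    obtain ⟨r, hr⟩ := hgJ
    obtain ⟨c, t, rfl⟩ := IsLocalization.exists_mk'_eq m.primeCompl r
    refine ⟨t, t.2, c, ?_⟩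
    apply hinj
    rw [map_mul, map_mul, hr]
    have := IsLocalization.mk'_spec R c t
    calc algebraMap B R t * (algebraMap B R b * IsLocalization.mk' R c t)
        = algebraMap B R b * (IsLocalization.mk' R c t * algebraMap B R t) := by ring
      _ = algebraMap B R b * algebraMap B R c := by rw [this]
      _ = algebraMap B R c * algebraMap B R b := by ring
  -- finitely many generators
  obtain ⟨S, hS⟩ := (isNoetherianRing_iff_ideal_fg B).1 inferInstance I
  choose! φ hφm hφ using key
  have hSI : ∀ g ∈ S, g ∈ I := fun g hg => hS ▸ Ideal.subset_span hg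
  refine ⟨b, hbI, ∏ g ∈ S, φ g, ?_, ?_⟩
  · intro hmem
    obtain ⟨g, hgS, hg⟩ := (Ideal.IsPrime.prod_mem_iff).1 hmem
    exact hφm g (hSI g hgS) hg
  · intro g hg
    rw [← hS] at hg
    refine Submodule.span_induction (p := fun g _ => ∃ c : B, (∏ g ∈ S, φ g) * g = c * b)
      ?_ ?_ ?_ ?_ hg
    · intro g hgS
      obtain ⟨c, hc⟩ := hφ g (hSI g hgS)
      refine ⟨(∏ g' ∈ S.erase g, φ g') * c, ?_⟩
      rw [← Finset.mul_prod_erase S φ hgS]
      calc (φ g * ∏ g' ∈ S.erase g, φ g') * g = (∏ g' ∈ S.erase g, φ g') * (φ g * g) := by ring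
        _ = (∏ g' ∈ S.erase g, φ g') * c * b := by rw [hc]; ring
    · exact ⟨0, by simp⟩
    · rintro g₁ g₂ - - ⟨c₁, h₁⟩ ⟨c₂, h₂⟩
      exact ⟨c₁ + c₂, by rw [mul_add, h₁, h₂, add_mul]⟩
    · rintro a g₁ - ⟨c₁, h₁⟩
      refine ⟨a * c₁, ?_⟩
      rw [smul_eq_mul, mul_left_comm, h₁, mul_assoc]

end Core2

end Fermat.Agent.S26.H126
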