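import Fermat.Agent.S26.H926.AmpleSpan
import Fermat.Agent.S26.H714.HartogsAffine
import Fermat.Agent.S26.H445.UFDSmooth
import Fermat.Agent.S26.H126.BoundaryAlg

/-!
# Row S26, block AMPLE, leaf AM-BOUNDARY (helper126): `Ample.Boundary K`

The complement of a nonempty affine open `U` of an abelian variety `A` is the support of an
effective Cartier divisor.

For a point `y` let `vanSet U y ⊆ K(A)` be the set of germs at `y` of sections vanishing outside
`U` (an ideal of `O_y`).  Locally on an affine chart it is generated by one element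
(`exists_local_generator`: factoriality of the local rings + Hartogs), and the inverses of these
local generators form the Cartier divisor.
-/

set_option autoImplicit false
universe u

open CategoryTheory CategoryTheory.Limits AlgebraicGeometry NeronModelInfra GoodReductionJacobian
open TopologicalSpace Opposite

namespace Fermat.Agent.S26.H126

open Fermat.Agent.S26 Fermat.Agent.S26.H926 Fermat.Agent.S26.H926.Ample

noncomputable section

section VanSet

variable {X : Scheme.{u}} [IsIntegral X]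

/-- The germs at `y`, as rational functions, of the sections vanishing outside `U`. -/
def vanSet (U : X.Opens) (y : X) : Set X.functionField :=
  {φ | ∃ (V : X.Opens) (hy : y ∈ V) (s : Γ(X, V)), X.basicOpen s ≤ U ∧
      algebraMap (X.presheaf.stalk y) X.functionField (X.presheaf.germ V y hy s) = φ}

variable {U : X.Opens} {y : X}

theorem inO_of_mem_vanSet {φ : X.functionField} (h : φ ∈ vanSet U y) : InO y φ := by
  obtain ⟨V, hy, s, -, rfl⟩ := h
  exact inO_iff.2 ⟨_, rfl⟩

theorem one_mem_vanSet_iff : (1 : X.functionField) ∈ vanSet U y ↔ y ∈ U := by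
  constructor
  · rintro ⟨V, hy, s, hs, h1⟩
    apply hs
    rw [X.mem_basicOpen s y hy]
    have hinj : Function.Injective (algebraMap (X.presheaf.stalk y) X.functionField) :=
      IsFractionRing.injective _ _
    have : X.presheaf.germ V y hy s = 1 := hinj (by rw [h1, map_one])
    rw [this]
    exact isUnit_one
  · intro hy
    refine ⟨U, hy, 1, X.basicOpen_le _, ?_⟩
    rw [map_one, map_one]

/-- `vanSet U y` is stable under multiplication by `O_y`. -/
theorem smul_mem_vanSet {φ : X.functionField} (h : φ ∈ vanSet U y) (c : X.presheaf.stalk y) :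
    c • φ ∈ vanSet U y := by
  obtain ⟨V, hy, s, hs, rfl⟩ := h
  obtain ⟨W, hyW, c', rfl⟩ := X.presheaf.germ_exist (x := y) c
  refine ⟨V ⊓ W, ⟨hy, hyW⟩, X.presheaf.map (homOfLE inf_le_right).op c' *
    X.presheaf.map (homOfLE inf_le_left).op s, ?_, ?_⟩
  · rw [Scheme.basicOpen_mul]
    refine inf_le_right.trans ?_
    rw [Scheme.basicOpen_res]
    exact inf_le_right.trans hs
  · rw [map_mul, map_mul, Algebra.smul_def]
    congr 2
    · exact X.presheaf.germ_res_apply (homOfLE inf_le_right) y ⟨hy, hyW⟩ c'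
    · exact X.presheaf.germ_res_apply (homOfLE inf_le_left) y ⟨hy, hyW⟩ s

end VanSet

section Chart

variable {X : Scheme.{u}} [IsIntegral X]

/-- The map from sections over a neighbourhood of `y` to the function field. -/
def toFF {W : X.Opens} {y : X} (hy : y ∈ W) : Γ(X, W) →+* X.functionField :=
  (algebraMap (X.presheaf.stalk y) X.functionField).comp (X.presheaf.germ W y hy).hom

theorem toFF_apply {W : X.Opens} {y : X} (hy : y ∈ W) (s : Γ(X, W)) :
    toFF hy s = algebraMap (X.presheaf.stalk y) X.functionField (X.presheaf.germ W y hy s) :=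
  rfl

theorem toFF_res {W W' : X.Opens} {y : X} (hy : y ∈ W) (hy' : y ∈ W') (h : W' ≤ W)
    (s : Γ(X, W)) : toFF hy' (X.presheaf.map (homOfLE h).op s) = toFF hy s := by
  rw [toFF_apply, toFF_apply]
  congr 1
  exact X.presheaf.germ_res_apply (homOfLE h) y hy' s

theorem toFF_eq_germToFunctionField {W : X.Opens} [Nonempty W] {y : X} (hy : y ∈ W)
    (s : Γ(X, W)) : toFF hy s = X.germToFunctionField W s :=
  Scheme.algebraMap_germ_eq_germToFunctionField X hy s

theorem toFF_ne_zero_of_mem_basicOpen {W : X.Opens} {y : X} (hy : y ∈ W) (s : Γ(X, W))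
    (hs : y ∈ X.basicOpen s) : toFF hy s ≠ 0 := by
  have hu : IsUnit (X.presheaf.germ W y hy s) := (X.mem_basicOpen s y hy).1 hs
  exact (hu.map (algebraMap (X.presheaf.stalk y) X.functionField)).ne_zero

/-- The inverse of a section invertible at `y` is regular at `y`. -/
theorem inO_inv_toFF_of_mem_basicOpen {W : X.Opens} {y : X} (hy : y ∈ W) (s : Γ(X, W))
    (hs : y ∈ X.basicOpen s) : InO y (toFF hy s)⁻¹ := by
  have hu : IsUnit (X.presheaf.germ W y hy s) := (X.mem_basicOpen s y hy).1 hs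
  obtain ⟨u, hu'⟩ := hu
  refine inO_iff.2 ⟨((u⁻¹ : (X.presheaf.stalk y)ˣ) : X.presheaf.stalk y), ?_⟩
  rw [toFF_apply, ← hu']
  apply eq_inv_of_mul_eq_one_left
  rw [← map_mul, Units.inv_mul, map_one]

theorem inO_pow {y : X} {φ : X.functionField} (h : InO y φ) (n : ℕ) : InO y (φ ^ n) := by
  induction n with
  | zero => rw [pow_zero]; exact inO_one
  | succ n ih => rw [pow_succ]; exact ih.mul h

theorem inO_toFF {W : X.Opens} {y : X} (hy : y ∈ W) (s : Γ(X, W)) : InO y (toFF hy s) :=
  inO_iff.2 ⟨_, rfl⟩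

/-- `f ∈ O_y · g` if `f / g ∈ O_y`. -/
theorem mem_span1_of_inO_div {y : X} {φ π : X.functionField} (hπ : π ≠ 0)
    (h : InO y (φ * π⁻¹)) : φ ∈ LS.span1 π y := by
  obtain ⟨c, hc⟩ := inO_iff.1 h
  refine mem_span1_iff.2 ⟨c, ?_⟩
  rw [Algebra.smul_def, hc, mul_assoc, inv_mul_cancel₀ hπ, mul_one]

variable (U : X.Opens)

/-- The ideal of the sections over `V` vanishing outside `U`. -/
def vanIdeal (V : X.Opens) : Ideal Γ(X, V) where
  carrier := {s | X.basicOpen s ≤ U}
  zero_mem' := by
    show X.basicOpen (0 : Γ(X, V)) ≤ U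
    rw [Scheme.basicOpen_zero]
    exact bot_le
  add_mem' := fun {a b} ha hb => (X.basicOpen_add_le a b).trans (sup_le ha hb)
  smul_mem' := fun c s hs => by
    show X.basicOpen (c * s) ≤ U
    rw [Scheme.basicOpen_mul]
    exact inf_le_right.trans hs

variable {U}

theorem mem_vanIdeal {V : X.Opens} {s : Γ(X, V)} : s ∈ vanIdeal U V ↔ X.basicOpen s ≤ U :=
  Iff.rfl

theorem vanIdeal_isRadical (V : X.Opens) : (vanIdeal U V).IsRadical := by
  rintro s ⟨n, hn⟩
  rw [mem_vanIdeal] at hn ⊢
  rcases Nat.eq_zero_or_pos n with rfl | hpos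
  · rw [pow_zero, Scheme.basicOpen_one] at hn
    exact (X.basicOpen_le s).trans hn
  · rwa [X.basicOpen_pow s hpos] at hn

/-- **Local generation on a chart.**  If `b ∈ vanIdeal U V` and `f • vanIdeal U V ⊆ (b)`, then
`b` generates `vanSet U y` for all `y ∈ D(f)`. -/
theorem mem_vanSet_iff_of_chart {V : X.Opens} (hV : IsAffineOpen V) [Nonempty V]
    (b f : Γ(X, V)) (hb : b ∈ vanIdeal U V) (hb0 : b ≠ 0)
    (hf : ∀ g ∈ vanIdeal U V, ∃ c, f * g = c * b) {y : X} (hy : y ∈ X.basicOpen f)
    (φ : X.functionField) :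
    φ ∈ vanSet U y ↔ φ ∈ LS.span1 (X.germToFunctionField V b) y := by
  have hyV : y ∈ V := X.basicOpen_le f hy
  have hπ0 : X.germToFunctionField V b ≠ 0 := by
    intro h0
    apply hb0
    apply Scheme.germToFunctionField_injective X V
    rw [h0, map_zero]
  constructor
  · rintro ⟨V', hy', s', hs', rfl⟩
    obtain ⟨h, hhV', hyh⟩ := hV.exists_basicOpen_le (⟨y, hy'⟩ : V') hyV
    have hyD : y ∈ X.basicOpen h := hyh
    haveI := hV.isLocalization_basicOpen h
    obtain ⟨n, t, ht⟩ := IsLocalization.Away.surj h (X.presheaf.map (homOfLE hhV').op s')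
    have halg : ∀ r : Γ(X, V), algebraMap Γ(X, V) Γ(X, X.basicOpen h) r =
        X.presheaf.map (homOfLE (X.basicOpen_le h)).op r := fun r => rfl
    rw [halg, halg] at ht
    -- `t * h` vanishes outside `U`
    have hth : t * h ∈ vanIdeal U V := by
      rw [mem_vanIdeal, Scheme.basicOpen_mul, inf_comm]
      have h1 := Scheme.basicOpen_res X t (homOfLE (X.basicOpen_le h)).op
      rw [← h1, ← ht, Scheme.basicOpen_mul]
      refine inf_le_left.trans ?_
      rw [Scheme.basicOpen_res]
      exact inf_le_right.trans hs'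
    obtain ⟨c, hc⟩ := hf _ hth
    -- the equations in the function field
    have e1 : toFF hy' s' * toFF hyV h ^ n = toFF hyV t := by
      have := congrArg (toFF hyD) ht
      rwa [map_mul, map_pow, toFF_res hy' hyD hhV', toFF_res hyV hyD, toFF_res hyV hyD] at this
    have e2 : toFF hyV f * (toFF hyV t * toFF hyV h) = toFF hyV c * toFF hyV b := by
      have := congrArg (toFF hyV) hc
      rwa [map_mul, map_mul, map_mul] at this
    have hF : toFF hyV f ≠ 0 := toFF_ne_zero_of_mem_basicOpen hyV f hy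
    have hH : toFF hyV h ≠ 0 := toFF_ne_zero_of_mem_basicOpen hyV h hyD
    rw [← toFF_apply hy', ← toFF_eq_germToFunctionField hyV]
    rw [← toFF_eq_germToFunctionField hyV] at hπ0
    apply mem_span1_of_inO_div hπ0
    have e4 : toFF hy' s' * (toFF hyV f * toFF hyV h ^ (n + 1)) = toFF hyV c * toFF hyV b := by
      linear_combination (toFF hyV f * toFF hyV h) * e1 + e2
    have hFH : toFF hyV f * toFF hyV h ^ (n + 1) ≠ 0 := mul_ne_zero hF (pow_ne_zero _ hH)
    have e5 : toFF hy' s' = toFF hyV c * toFF hyV b * (toFF hyV f * toFF hyV h ^ (n + 1))⁻¹ := by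
      rw [eq_mul_inv_iff_mul_eq₀ hFH]
      exact e4
    have e3 : toFF hy' s' * (toFF hyV b)⁻¹ =
        toFF hyV c * ((toFF hyV f)⁻¹ * ((toFF hyV h)⁻¹) ^ (n + 1)) := by
      calc toFF hy' s' * (toFF hyV b)⁻¹
          = toFF hyV c * toFF hyV b * (toFF hyV f * toFF hyV h ^ (n + 1))⁻¹ *
              (toFF hyV b)⁻¹ := by rw [← e5]
        _ = toFF hyV c * ((toFF hyV f)⁻¹ * ((toFF hyV h)⁻¹) ^ (n + 1)) *
              (toFF hyV b * (toFF hyV b)⁻¹) := by
            rw [mul_inv, inv_pow]
            ring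
        _ = toFF hyV c * ((toFF hyV f)⁻¹ * ((toFF hyV h)⁻¹) ^ (n + 1)) := by
            rw [mul_inv_cancel₀ hπ0, mul_one]
    rw [e3]
    exact (inO_toFF hyV c).mul ((inO_inv_toFF_of_mem_basicOpen hyV f hy).mul
      (inO_pow (inO_inv_toFF_of_mem_basicOpen hyV h hyD) (n + 1)))
  · intro h
    obtain ⟨c, rfl⟩ := mem_span1_iff.1 h
    apply smul_mem_vanSet
    exact ⟨V, hyV, b, hb, toFF_eq_germToFunctionField hyV b⟩

end Chart

section Hartogs

variable {X : Scheme.{u}} [IsIntegral X]

/-- Dictionary: `y ∈ D(s)` iff `s` is not in the prime ideal of `y`. -/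
theorem mem_basicOpen_iff_notMem_primeIdealOf {V : X.Opens} (hV : IsAffineOpen V)
    (s : Γ(X, V)) {y : X} (hy : y ∈ V) :
    y ∈ X.basicOpen s ↔ s ∉ (hV.primeIdealOf ⟨y, hy⟩).asIdeal := by
  have h1 : (hV.primeIdealOf ⟨y, hy⟩) ∈ hV.fromSpec ⁻¹ᵁ X.basicOpen s ↔ y ∈ X.basicOpen s := by
    show hV.fromSpec (hV.primeIdealOf ⟨y, hy⟩) ∈ X.basicOpen s ↔ _
    rw [hV.fromSpec_primeIdealOf]
  rw [← h1, hV.fromSpec_preimage_basicOpen]
  exact PrimeSpectrum.mem_basicOpen _ _

theorem fromSpec_mem {V : X.Opens} (hV : IsAffineOpen V) (P : PrimeSpectrum Γ(X, V)) :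
    hV.fromSpec P ∈ V := by
  have h := hV.range_fromSpec
  have : hV.fromSpec P ∈ Set.range hV.fromSpec := ⟨P, rfl⟩
  rw [h] at this
  exact this

theorem primeIdealOf_fromSpec {V : X.Opens} (hV : IsAffineOpen V) (P : PrimeSpectrum Γ(X, V)) :
    hV.primeIdealOf ⟨hV.fromSpec P, fromSpec_mem hV P⟩ = P := by
  apply hV.fromSpec.isOpenEmbedding.injective
  exact hV.fromSpec_primeIdealOf ⟨hV.fromSpec P, fromSpec_mem hV P⟩

/-- Points of `V` outside `U` are the primes containing `vanIdeal U V`. -/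
theorem vanIdeal_le_primeIdealOf_iff {U V : X.Opens} (hV : IsAffineOpen V) {y : X} (hy : y ∈ V) :
    vanIdeal U V ≤ (hV.primeIdealOf ⟨y, hy⟩).asIdeal ↔ y ∉ U := by
  constructor
  · intro hle hyU
    obtain ⟨s, hsU, hys⟩ := hV.exists_basicOpen_le (⟨y, hyU⟩ : U) hy
    have h1 : s ∈ vanIdeal U V := hsU
    exact (mem_basicOpen_iff_notMem_primeIdealOf hV s hy).1 hys (hle h1)
  · intro hyU s hs
    by_contra hsy
    exact hyU (hs ((mem_basicOpen_iff_notMem_primeIdealOf hV s hy).2 hsy))

/-- Specialisation in terms of prime ideals of a chart. -/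
theorem primeIdealOf_le_of_specializes {V : X.Opens} (hV : IsAffineOpen V) {y z : X}
    (hy : y ∈ V) (hz : z ∈ V) (h : y ⤳ z) :
    (hV.primeIdealOf ⟨y, hy⟩).asIdeal ≤ (hV.primeIdealOf ⟨z, hz⟩).asIdeal := by
  have h1 : hV.fromSpec (hV.primeIdealOf ⟨y, hy⟩) ⤳ hV.fromSpec (hV.primeIdealOf ⟨z, hz⟩) := by
    rw [hV.fromSpec_primeIdealOf, hV.fromSpec_primeIdealOf]
    exact h
  have h2 := (hV.fromSpec.isOpenEmbedding.isInducing.specializes_iff).1 h1
  exact (PrimeSpectrum.le_iff_specializes _ _).2 h2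

/-- **Hartogs.**  The minimal primes of the ideal of the complement of an affine open have
height one. -/
theorem height_eq_one_of_mem_minimalPrimes_vanIdeal [IsLocallyNoetherian X]
    {S : Scheme.{u}} (g : X ⟶ S) [IsSeparated g] [IsAffine S]
    {U : X.Opens} (hU : IsAffineOpen U) [Nonempty U] {V : X.Opens} (hV : IsAffineOpen V)
    [IsIntegrallyClosed Γ(X, V)] (P : Ideal Γ(X, V))
    (hP : P ∈ (vanIdeal U V).minimalPrimes) : P.height = 1 := by
  haveI hPp : P.IsPrime := hP.isPrime
  set P' : PrimeSpectrum Γ(X, V) := ⟨P, hPp⟩ with hP'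
  set z : X := hV.fromSpec P' with hz
  have hzV : z ∈ V := fromSpec_mem hV P'
  have hpz : hV.primeIdealOf ⟨z, hzV⟩ = P' := primeIdealOf_fromSpec hV P'
  have hzU : z ∉ U := by
    rw [← vanIdeal_le_primeIdealOf_iff hV hzV, hpz]
    exact hP.1.2
  have hmax : ∀ y : X, y ⤳ z → y ∉ U → y = z := by
    intro y hyz hyU
    have hyV : y ∈ V := hyz.mem_open V.isOpen hzV
    have h1 := primeIdealOf_le_of_specializes hV hyV hzV hyz
    rw [hpz] at h1
    have h2 := (vanIdeal_le_primeIdealOf_iff hV hyV).2 hyU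
    have h3 : P ≤ (hV.primeIdealOf ⟨y, hyV⟩).asIdeal :=
      hP.2 ⟨(hV.primeIdealOf ⟨y, hyV⟩).isPrime, h2⟩ h1
    have h4 : hV.primeIdealOf ⟨y, hyV⟩ = P' := PrimeSpectrum.ext (le_antisymm h1 h3)
    have h5 := hV.fromSpec_primeIdealOf ⟨y, hyV⟩
    rw [h4] at h5
    exact h5.symm
  have hnorm : IsIntegrallyClosed (X.presheaf.stalk z) :=
    Fermat.Agent.S26.H714.isIntegrallyClosed_stalk_of_isAffineOpen hV z hzV
  have hdim := Fermat.Agent.S26.H714.ringKrullDim_stalk_eq_one_of_isAffineOpen_over g hU hnorm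
    hzU hmax
  have h6 := @IsLocalization.AtPrime.ringKrullDim_eq_height _ _ P'.asIdeal _
    (X.presheaf.stalk (hV.fromSpec P')) _
    (TopCat.Presheaf.algebra_section_stalk X.presheaf ⟨_, hzV⟩) (hV.isLocalization_stalk' P' hzV)
  rw [hdim] at h6
  exact_mod_cast h6.symm

end Hartogs

section Smooth

variable {K : Type u} [Field K] {X : Scheme.{u}} (str : X ⟶ Spec (CommRingCat.of K))

/-- The structure map `K → Γ(X, V)` of a `K`-scheme. -/
def secStr (V : X.Opens) : K →+* Γ(X, V) :=
  (str.appLE ⊤ V (fun _ _ => trivial)).hom.comp (Scheme.ΓSpecIso (CommRingCat.of K)).inv.hom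

theorem secStr_smooth [Smooth str] {V : X.Opens} (hV : IsAffineOpen V) :
    (secStr str V).Smooth := by
  have h := str.smooth_appLE (isAffineOpen_top (Spec (CommRingCat.of K))) hV
    (fun _ _ => trivial)
  rw [secStr]
  exact RingHom.Smooth.comp
    (RingHom.Smooth.of_bijective
      (ConcreteCategory.bijective_of_isIso (Scheme.ΓSpecIso (CommRingCat.of K)).inv)) h

variable [IsAlgClosed K] [IsIntegral X] [Smooth str] [IsSeparated str]

include str in
/-- **Local generators of the ideal of the complement of an affine open** on a smooth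
separated integral scheme over an algebraically closed field. -/
theorem exists_chart_generator (U : X.Opens) (hU : IsAffineOpen U) [Nonempty U] (x : X) :
    ∃ (W : X.Opens) (π : X.functionField), x ∈ W ∧ π ≠ 0 ∧
      ∀ y ∈ W, ∀ φ, φ ∈ vanSet U y ↔ φ ∈ LS.span1 π y := by
  classical
  obtain ⟨_, ⟨V, hV, rfl⟩, hxV, -⟩ :=
    X.isBasis_affineOpens.exists_subset_of_mem_open (Set.mem_univ x) isOpen_univ
  have hxV' : x ∈ V := hxV
  haveI : Nonempty V := ⟨⟨x, hxV'⟩⟩
  letI : Algebra K Γ(X, V) := (secStr str V).toAlgebra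
  haveI hsm : Algebra.Smooth K Γ(X, V) := secStr_smooth str hV
  haveI : Algebra.FinitePresentation K Γ(X, V) := hsm.finitePresentation
  haveI : Algebra.FiniteType K Γ(X, V) := Algebra.FiniteType.of_finitePresentation
  haveI : IsNoetherianRing Γ(X, V) := Algebra.FiniteType.isNoetherianRing K _
  haveI : IsLocallyNoetherian X := LocallyOfFiniteType.isLocallyNoetherian str
  haveI : IsIntegrallyClosed Γ(X, V) :=
    IsIntegrallyClosed.of_localization_maximal (fun p _ _ => by
      obtain ⟨hd, hu⟩ := Fermat.Agent.S26.H445.ufd_of_smooth_localization K Γ(X, V) p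
        (Localization.AtPrime p)
      exact UniqueFactorizationMonoid.instIsIntegrallyClosed)
  -- the maximal ideal
  set p : Ideal Γ(X, V) := (hV.primeIdealOf ⟨x, hxV'⟩).asIdeal with hp
  obtain ⟨m, hm, hpm⟩ := Ideal.exists_le_maximal p (hV.primeIdealOf ⟨x, hxV'⟩).isPrime.ne_top
  haveI := hm
  obtain ⟨hd, hu⟩ := Fermat.Agent.S26.H445.ufd_of_smooth_localization K Γ(X, V) m
    (Localization.AtPrime m)
  obtain ⟨b, hbI, f, hfm, hf⟩ := exists_local_generator (vanIdeal U V) (vanIdeal_isRadical V) m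
    (Localization.AtPrime m)
    (fun P hP _ => height_eq_one_of_mem_minimalPrimes_vanIdeal str hU hV P hP)
  -- `b ≠ 0`
  have hb0 : b ≠ 0 := by
    rintro rfl
    obtain ⟨u⟩ := ‹Nonempty U›
    have hgU : genericPoint X ∈ U :=
      ((genericPoint_spec X).mem_open_set_iff U.isOpen).2 ⟨u.1, Set.mem_univ _, u.2⟩
    have hgV : genericPoint X ∈ V :=
      ((genericPoint_spec X).mem_open_set_iff V.isOpen).2 ⟨x, Set.mem_univ _, hxV'⟩
    obtain ⟨s, hsU, hgs⟩ := hV.exists_basicOpen_le (⟨genericPoint X, hgU⟩ : U) hgV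
    have hs0 : s ≠ 0 := by
      rintro rfl
      rw [Scheme.basicOpen_zero] at hgs
      exact hgs
    obtain ⟨c, hc⟩ := hf s hsU
    rw [mul_zero] at hc
    rcases mul_eq_zero.1 hc with h | h
    · exact hfm (h ▸ m.zero_mem)
    · exact hs0 h
  refine ⟨X.basicOpen f, X.germToFunctionField V b, ?_, ?_, ?_⟩
  · rw [mem_basicOpen_iff_notMem_primeIdealOf hV f hxV']
    exact fun h => hfm (hpm h)
  · intro h0
    apply hb0
    apply Scheme.germToFunctionField_injective X V
    rw [h0, map_zero]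
  · intro y hy φ
    exact mem_vanSet_iff_of_chart hV b f hbI hb0 hf hy φ

end Smooth

section Assembly

/-- Equal principal fractional ideals have equal inverses. -/
theorem span1_inv_congr {X : Scheme.{u}} [IsIntegral X] {y : X} {φ ψ : X.functionField}
    (hφ : φ ≠ 0) (hψ : ψ ≠ 0) (h : LS.span1 φ y = LS.span1 ψ y) :
    LS.span1 φ⁻¹ y = LS.span1 ψ⁻¹ y := by
  have h1 : Triv y (φ * ψ⁻¹) := by
    rw [triv_iff_span1_mul hψ]
    rw [← h]
    congr 1
    field_simp
  have h2 := (triv_iff_span1_mul (x := y) (inv_ne_zero hφ)).1 h1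
  rw [← h2]
  congr 1
  field_simp

variable {K : Type u} [Field K] [IsAlgClosed K] {X : Scheme.{u}} [IsIntegral X]
  (str : X ⟶ Spec (CommRingCat.of K)) [Smooth str] [IsSeparated str]

include str in
/-- **The boundary divisor, intrinsic form.**  On a smooth separated integral scheme over an
algebraically closed field, the ideal sheaf of the complement of a nonempty affine open `U` is
invertible: there is a Cartier divisor `D` whose inverse local generators generate
`vanSet U a` at every point `a`. -/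
theorem exists_cdiv_vanSet (U : X.Opens) (hU : IsAffineOpen U) [Nonempty U] :
    ∃ D : CDiv X, ∀ (a : X) (φ : X.functionField),
      φ ∈ vanSet U a ↔ φ ∈ LS.span1 (D.gen a)⁻¹ a := by
  choose W π hxW hπ0 hgen using exists_chart_generator str U hU
  refine ⟨⟨fun x => (π x)⁻¹, fun x => inv_ne_zero (hπ0 x),
    fun x => ⟨W x, hxW x, fun y hy => ?_⟩⟩, fun a φ => ?_⟩
  · have h1 : LS.span1 (π y) y = LS.span1 (π x) y := by
      ext φ
      rw [← hgen y y (hxW y) φ, ← hgen x y hy φ]
    exact span1_inv_congr (hπ0 y) (hπ0 x) h1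
  · show φ ∈ vanSet U a ↔ φ ∈ LS.span1 ((π a)⁻¹)⁻¹ a
    rw [inv_inv]
    exact hgen a a (hxW a) φ

end Assembly

/-- **AM-BOUNDARY.**  The complement of a nonempty affine open of an abelian variety is the
support of an effective Cartier divisor. -/
theorem boundary (K : Type u) [Field K] [IsAlgClosed K] : Ample.Boundary K := by
  intro X _ U hU hne
  haveI : Nonempty U := by
    obtain ⟨a, ha⟩ := hne
    exact ⟨⟨a, ha⟩⟩
  haveI : Smooth X.str := X.bundle.smooth
  haveI : IsProper X.str := X.bundle.proper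
  obtain ⟨D, hD⟩ := exists_cdiv_vanSet X.str U hU
  have hin : ∀ a, InO a (D.gen a)⁻¹ := fun a =>
    inO_of_mem_vanSet ((hD a _).2 (self_mem_span1 _))
  refine ⟨D, fun a => ?_, fun a => ?_⟩
  · exact eff_of_inO_inv (D.gen_ne a) (hin a)
  · rw [← one_mem_vanSet_iff (U := U) (y := a), hD a 1]
    constructor
    · intro h1
      have hT : Triv a (D.gen a)⁻¹ := triv_iff.2 ⟨hin a, h1⟩
      have := hT.inv
      rwa [inv_inv] at this
    · intro hT
      exact (triv_iff.1 hT.inv).2

end

end Fermat.Agent.S26.H126
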