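import Fermat.Agent.S26.SpecDeg
import Fermat.Agent.S26.H126.GroupCalc

/-!
# Row S26, block SOFT, leaf S1 (helper126): the group calculus for `AbVar`

Thin wrapper around `GroupCalc.lean` in the language of `Fermat.Agent.S26.AbVar`
(`X.nsmulHom`, `X.negHom`, `X.Pt`, `X.zero`, `X.Torsion`).
-/

set_option autoImplicit false

noncomputable section

universe u

open CategoryTheory CategoryTheory.Limits AlgebraicGeometry NeronModelInfra GoodReductionJacobian

namespace Fermat.Agent.S26.H126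

variable {K : Type u} [Field K] (X : AbVar K)

theorem abVar_nsmulHom_eq (n : ℕ) : X.nsmulHom n = X.law.schemeNsmul n := rfl

theorem abVar_negHom_eq : X.negHom = negHom X.law := rfl

theorem abVar_zero_coe : X.zero.1 = zeroSec X.law := rfl

/-- The addition `m : A ×_K A ⟶ A`. -/
abbrev abVarAdd : pullback X.str X.str ⟶ X.A := addHom X.law

/-- The translation `T_x : A ⟶ A`, `a ↦ a + x`. -/
abbrev abVarTransl (x : X.Pt) : X.A ⟶ X.A := transl X.law x

/-- the sum of two `K`-points -/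
abbrev abVarPtAdd (x y : X.Pt) : X.Pt := X.law.mul (𝟙 (Spec (CommRingCat.of K))) x y

/-- the multiple of a `K`-point -/
abbrev abVarPtNsmul (n : ℕ) (x : X.Pt) : X.Pt := X.law.nsmul (𝟙 (Spec (CommRingCat.of K))) n x

@[reassoc]
theorem abVar_nsmulHom_over (n : ℕ) : X.nsmulHom n ≫ X.str = X.str := X.law.schemeNsmul_over n

@[reassoc]
theorem abVar_negHom_over : X.negHom ≫ X.str = X.str := negHom_over X.law

@[reassoc]
theorem abVar_negHom_negHom : X.negHom ≫ X.negHom = 𝟙 X.A := negHom_negHom X.law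

instance abVar_negHom_isIso : IsIso X.negHom := negHom_isIso X.law

instance abVar_transl_isIso (x : X.Pt) : IsIso (abVarTransl X x) := transl_isIso X.law x

theorem abVar_nsmulHom_one : X.nsmulHom 1 = 𝟙 X.A := schemeNsmul_one X.law

theorem abVar_nsmulHom_mul (m n : ℕ) : X.nsmulHom (m * n) = X.nsmulHom m ≫ X.nsmulHom n :=
  schemeNsmul_mul X.law m n

/-- `[n] ∘ T_x = T_{n x} ∘ [n]`. -/
theorem abVar_transl_comp_nsmulHom (n : ℕ) (x : X.Pt) :
    abVarTransl X x ≫ X.nsmulHom n = X.nsmulHom n ≫ abVarTransl X (abVarPtNsmul X n x) :=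
  transl_comp_schemeNsmul X.law X.comm n x

/-- `[-1] ∘ T_x = T_{-x} ∘ [-1]`. -/
theorem abVar_transl_comp_negHom (x : X.Pt) :
    abVarTransl X x ≫ X.negHom =
      X.negHom ≫ abVarTransl X (X.law.inv (𝟙 (Spec (CommRingCat.of K))) x) :=
  transl_comp_negHom X.law X.comm x

/-- `[n]` on `K`-points. -/
theorem abVar_pt_comp_nsmulHom (n : ℕ) (x : X.Pt) :
    x.1 ≫ X.nsmulHom n = (abVarPtNsmul X n x).1 :=
  (law_nsmul_coe X.law n x).symm

/-- `T_x` on `K`-points. -/
theorem abVar_pt_comp_transl (y x : X.Pt) :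
    y.1 ≫ abVarTransl X x = (abVarPtAdd X y x).1 :=
  pt_comp_transl X.law y x

/-- Translations are transitive on `K`-points. -/
theorem abVar_exists_transl (y z : X.Pt) : ∃ x : X.Pt, y.1 ≫ abVarTransl X x = z.1 :=
  exists_transl X.law y z

/-- A `K`-point is `n`-torsion iff `[n]` maps it to `0`. -/
theorem abVar_isTorsionPoint_iff (n : ℕ) (x : X.Pt) :
    X.law.IsTorsionPoint (𝟙 (Spec (CommRingCat.of K))) n x ↔ x.1 ≫ X.nsmulHom n = X.zero.1 := by
  rw [isTorsionPoint_iff, Category.id_comp]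
  rfl

/-- The `K`-points of the scheme-theoretic kernel of `[n]` are the `n`-torsion `K`-points. -/
def abVarTorsionEquiv (n : ℕ) :
    SchemeHomOver (𝟙 (Spec (CommRingCat.of K))) (X.law.schemeKerStr n) ≃ X.Torsion n :=
  kerPtEquiv X.law n _

theorem abVar_card_torsion (n : ℕ) :
    Nat.card (X.Torsion n) =
      Nat.card (SchemeHomOver (𝟙 (Spec (CommRingCat.of K))) (X.law.schemeKerStr n)) :=
  (Nat.card_congr (abVarTorsionEquiv X n)).symm

end Fermat.Agent.S26.H126
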